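import Fermat.Agent.ErdosKac.Turan
import Fermat.Agent.Root.SummaryErdosKac
import Fermat.Agent.Root.SummaryThreeTorsionBound
import Fermat.Agent.TwoSelmerBound.Main

/-!
# The quadratic twists of a curve have rank `O (ω (d))`

The cubic field of the twist is that of the curve, so the descent leaves only the primes of `d`.
Also: few integral equations have a given discriminant.
-/

set_option autoImplicit false
set_option linter.style.haveILetI false

noncomputable section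

open WeierstrassCurve NumberField Module Finset
open FA.AverageRank (CubicAlg cubicPoly theta ratIn PointsModTwo natDegree_cubicPoly theta_rel
  quadratic_zero)
open FA.TwoSelmerBound (card_modTwo_of_root card_modTwo_le_two_torsion irreducible_cubicPoly
  abs_discr_le_of_root)
open FA.BrumerSilverman (exists_pow_card_le)
open scoped Classical

namespace FA.TwistRankBound

/-- The discriminant of the twist. -/
theorem twist_disc (A B d : ℤ) :
    4 * (A * d ^ 2) ^ 3 + 27 * (B * d ^ 3) ^ 2 = d ^ 6 * (4 * A ^ 3 + 27 * B ^ 2) := by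
  ring

theorem twist_disc_ne {A B : ℤ} (hΔ : 4 * A ^ 3 + 27 * B ^ 2 ≠ 0) {d : ℤ} (hd : d ≠ 0) :
    4 * (A * d ^ 2) ^ 3 + 27 * (B * d ^ 3) ^ 2 ≠ 0 := by
  rw [twist_disc]; exact mul_ne_zero (pow_ne_zero 6 hd) hΔ

theorem card_primes_twist (A B d : ℤ) :
    (4 * (A * d ^ 2) ^ 3 + 27 * (B * d ^ 3) ^ 2).natAbs.primeFactors.card ≤
      d.natAbs.primeFactors.card + (4 * A ^ 3 + 27 * B ^ 2).natAbs.primeFactors.card := by
  rw [twist_disc, Int.natAbs_mul, Int.natAbs_pow]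
  rcases eq_or_ne d.natAbs 0 with h | h
  · simp [h]
  rcases eq_or_ne (4 * A ^ 3 + 27 * B ^ 2).natAbs 0 with h' | h'
  · simp [h']
  rw [Nat.primeFactors_mul (pow_ne_zero 6 h) h', Nat.primeFactors_pow _ (by norm_num)]
  exact card_union_le _ _

/-- **The points modulo doubles of the twists.** -/
theorem exists_modTwo_bound {A B : ℤ} (hΔ : 4 * A ^ 3 + 27 * B ^ 2 ≠ 0) :
    ∃ C : ℕ, ∀ d : ℤ, d ≠ 0 →
      Nat.card (PointsModTwo ((A * d ^ 2 : ℤ) : ℚ) ((B * d ^ 3 : ℤ) : ℚ)) ≤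
        C * 256 ^ d.natAbs.primeFactors.card := by
  obtain ⟨T, htwo⟩ := FA.TwoTorsionBound.exists_two_torsion_bound 3 (by norm_num)
    (show (0 : ℝ) < 1 by norm_num)
  set D := 4 * A ^ 3 + 27 * B ^ 2
  set e : ℝ := (1 : ℝ) / 2 - 1 / (2 * ((3 : ℕ) : ℝ)) + 1
  have he : 0 ≤ e := by simp only [e]; norm_num
  set H : ℕ := ⌈max T 0 * |(D : ℝ)| ^ e⌉₊
  set w := D.natAbs.primeFactors.card
  refine ⟨9 * 256 ^ w * (H + 1), fun d hd => ?_⟩
  set ν := d.natAbs.primeFactors.card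
  have hcard := card_primes_twist A B d
  by_cases hroot : ∃ r : ℚ, r ^ 3 + ((A * d ^ 2 : ℤ) : ℚ) * r + ((B * d ^ 3 : ℤ) : ℚ) = 0
  · obtain ⟨r, hr⟩ := hroot
    calc _ ≤ 8 * 4 ^ (4 * (A * d ^ 2) ^ 3 + 27 * (B * d ^ 3) ^ 2).natAbs.primeFactors.card :=
          card_modTwo_of_root (twist_disc_ne hΔ hd) hr
      _ ≤ 8 * 256 ^ (ν + w) := Nat.mul_le_mul_left _ ((Nat.pow_le_pow_left (by norm_num) _).trans
          (Nat.pow_le_pow_right (by norm_num) hcard))
      _ ≤ 9 * 256 ^ w * (H + 1) * 256 ^ ν := by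
          rw [pow_add]
          have : 0 < 256 ^ ν * 256 ^ w := by positivity
          nlinarith
  · push Not at hroot
    set A' : ℤ := A * d ^ 2 with hA'
    set B' : ℤ := B * d ^ 3 with hB'
    haveI : Fact (Irreducible (cubicPoly (A' : ℚ) B')) := ⟨irreducible_cubicPoly hroot⟩
    set K := CubicAlg (A' : ℚ) B'
    have hfin : finrank ℚ K = 3 := by
      rw [(AdjoinRoot.powerBasis (irreducible_cubicPoly hroot).ne_zero).finrank,
        AdjoinRoot.powerBasis_dim, natDegree_cubicPoly]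
    haveI hfd : FiniteDimensional ℚ K := FiniteDimensional.of_finrank_eq_succ hfin
    haveI : NumberField K := @NumberField.mk _ _ inferInstance hfd
    have hin : ∀ r : ℚ, ratIn (A' : ℚ) B' r = (r : K) := fun r =>
      eq_ratCast (AdjoinRoot.of (cubicPoly (A' : ℚ) B')) r
    have hdK : (d : K) ≠ 0 := Int.cast_ne_zero.mpr hd
    have hdQ : (d : ℚ) ≠ 0 := Int.cast_ne_zero.mpr hd
    have hθ : (theta (A' : ℚ) B' / (d : K)) ^ 3 + (A : K) * (theta (A' : ℚ) B' / (d : K)) +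
        (B : K) = 0 := by
      have h := theta_rel (A' : ℚ) B'
      simp only [hin, hA', hB'] at h
      push_cast at h
      field_simp
      linear_combination h
    have hdisc : |(discr K : ℝ)| ≤ |(D : ℝ)| :=
      abs_discr_le_of_root hfin hΔ _ hθ fun a b c h => by
        obtain ⟨h2, h1, h0⟩ := quadratic_zero (A := (A' : ℚ)) (B := (B' : ℚ))
          (a := a / (d : ℚ) ^ 2) (b := b / (d : ℚ)) (c := c) (by
            rw [hin, hin, hin]
            push_cast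
            linear_combination h)
        exact ⟨(div_eq_zero_iff.mp h2).resolve_right (pow_ne_zero 2 hdQ),
          (div_eq_zero_iff.mp h1).resolve_right hdQ, h0⟩
    have hh : Nat.card {c : ClassGroup (𝓞 K) // c ^ 2 = 1} ≤ H := by
      have h2 : (Nat.card {c : ClassGroup (𝓞 K) // c ^ 2 = 1} : ℝ) ≤ max T 0 * |(D : ℝ)| ^ e :=
        (htwo K hfin).trans (mul_le_mul (le_max_left _ _)
          (Real.rpow_le_rpow (abs_nonneg _) hdisc he) (Real.rpow_nonneg (abs_nonneg _) _)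
          (le_max_right _ _))
      exact Nat.cast_le.mp (h2.trans (Nat.le_ceil _))
    refine (card_modTwo_le_two_torsion (twist_disc_ne hΔ hd)).2.trans ?_
    calc 1 + 8 * 256 ^ (4 * A' ^ 3 + 27 * B' ^ 2).natAbs.primeFactors.card *
          Nat.card {c : ClassGroup (𝓞 K) // c ^ 2 = 1}
        ≤ 1 + 8 * 256 ^ (ν + w) * H :=
          Nat.add_le_add_left (Nat.mul_le_mul (Nat.mul_le_mul_left _
            (Nat.pow_le_pow_right (by norm_num) hcard)) hh) 1
      _ ≤ 9 * 256 ^ w * (H + 1) * 256 ^ ν := by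
          rw [pow_add]
          have : 0 < 256 ^ ν * 256 ^ w := by positivity
          nlinarith

/-- **The rank of the twists.** -/
theorem exists_rank_le_omega {A B : ℤ} (hΔ : 4 * A ^ 3 + 27 * B ^ 2 ≠ 0) :
    ∃ M : ℕ, ∀ d : ℤ, d ≠ 0 →
      FA.AverageRank.rankOf (A * d ^ 2) (B * d ^ 3) ≤ 8 * d.natAbs.primeFactors.card + M := by
  obtain ⟨C, hC⟩ := exists_modTwo_bound hΔ
  refine ⟨C, fun d hd => ?_⟩
  haveI := IntegralUniform.finite_modTwo (twist_disc_ne hΔ hd)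
  refine (Nat.pow_le_pow_iff_right (show 1 < 2 by norm_num)).mp ?_
  calc 2 ^ FA.AverageRank.rankOf (A * d ^ 2) (B * d ^ 3)
      ≤ _ := FA.AverageRank.two_pow_rank_le_modTwo (twist_disc_ne hΔ hd)
    _ ≤ C * 256 ^ d.natAbs.primeFactors.card := hC d hd
    _ ≤ 2 ^ C * 256 ^ d.natAbs.primeFactors.card :=
        Nat.mul_le_mul_right _ Nat.lt_two_pow_self.le
    _ = _ := by rw [pow_add, pow_mul]; norm_num; ring

/-- The mean number of prime divisors. -/
theorem exists_sum_omega_le : ∃ C : ℝ, 0 ≤ C ∧ ∀ N : ℕ, 3 ≤ N →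
    ((∑ n ∈ Icc 1 N, n.primeFactors.card : ℕ) : ℝ) ≤ N * (Real.log (Real.log N) + C) := by
  obtain ⟨C, hC⟩ := FA.ErdosKac.Summary.mertens_second
  refine ⟨max C 0, le_max_right _ _, fun N hN => ?_⟩
  have e : ∑ n ∈ Icc 1 N, n.primeFactors.card =
      ∑ p ∈ (Icc 1 N).filter Nat.Prime, N / p := by
    have h1 : ∀ n ∈ Icc 1 N, n.primeFactors.card =
        ∑ p ∈ (Icc 1 N).filter Nat.Prime, if p ∣ n then 1 else 0 := by
      intro n hn
      rw [mem_Icc] at hn
      rw [sum_boole, Nat.cast_id]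
      congr 1
      ext p
      simp only [Nat.mem_primeFactors, mem_filter, mem_Icc]
      constructor
      · rintro ⟨hp, hd, -⟩
        exact ⟨⟨⟨hp.one_le, (Nat.le_of_dvd (by omega) hd).trans hn.2⟩, hp⟩, hd⟩
      · rintro ⟨⟨-, hp⟩, hd⟩
        exact ⟨hp, hd, by omega⟩
    rw [sum_congr rfl h1, sum_comm]
    refine sum_congr rfl fun p _ => ?_
    rw [sum_boole, Nat.cast_id, ← Nat.Ioc_filter_dvd_card_eq_div N p]
    rfl
  rw [e, Nat.cast_sum]
  calc ∑ p ∈ (Icc 1 N).filter Nat.Prime, ((N / p : ℕ) : ℝ)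
      ≤ ∑ p ∈ (Icc 1 N).filter Nat.Prime, (N : ℝ) * (p : ℝ)⁻¹ :=
        sum_le_sum fun p _ => Nat.cast_div_le.trans_eq (div_eq_mul_inv _ _)
    _ = (N : ℝ) * ∑ p ∈ (Icc 1 N).filter Nat.Prime, (p : ℝ)⁻¹ := by rw [mul_sum]
    _ ≤ _ := by
        refine mul_le_mul_of_nonneg_left ?_ (Nat.cast_nonneg _)
        have := (abs_le.mp (hC N (by omega))).2
        linarith [le_max_left C 0]

/-- **The mean rank of the twists.** -/
theorem exists_rank_mean {A B : ℤ} (hΔ : 4 * A ^ 3 + 27 * B ^ 2 ≠ 0) :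
    ∃ C : ℝ, 0 ≤ C ∧ ∀ N : ℕ, 3 ≤ N →
      ((∑ n ∈ Icc 1 N, (FA.AverageRank.rankOf (A * (n : ℤ) ^ 2) (B * (n : ℤ) ^ 3) +
        FA.AverageRank.rankOf (A * (-(n : ℤ)) ^ 2) (B * (-(n : ℤ)) ^ 3)) : ℕ) : ℝ) ≤
        C * N * Real.log (Real.log N) := by
  obtain ⟨M, hM⟩ := exists_rank_le_omega hΔ
  obtain ⟨C, hC0, hC⟩ := exists_sum_omega_le
  set l := Real.log (Real.log 3)
  have hl : 0 < l := Real.log_pos (by
    rw [Real.lt_log_iff_exp_lt (by norm_num)]
    linarith [Real.exp_one_lt_d9])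
  refine ⟨16 + (16 * C + 2 * M) / l, by positivity, fun N hN => ?_⟩
  have h1 : ∑ n ∈ Icc 1 N, (FA.AverageRank.rankOf (A * (n : ℤ) ^ 2) (B * (n : ℤ) ^ 3) +
      FA.AverageRank.rankOf (A * (-(n : ℤ)) ^ 2) (B * (-(n : ℤ)) ^ 3)) ≤
      16 * (∑ n ∈ Icc 1 N, n.primeFactors.card) + 2 * M * N := by
    refine (sum_le_sum (g := fun n => 16 * n.primeFactors.card + 2 * M) fun n hn => ?_).trans
      (le_of_eq ?_)
    · have hn0 : (n : ℤ) ≠ 0 := by
        rw [mem_Icc] at hn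
        exact Int.natCast_ne_zero.mpr (by omega)
      have e1 := hM _ hn0
      have e2 := hM _ (neg_ne_zero.mpr hn0)
      rw [Int.natAbs_neg, Int.natAbs_natCast] at e2
      rw [Int.natAbs_natCast] at e1
      omega
    · rw [sum_add_distrib, ← mul_sum, sum_const, Nat.card_Icc, smul_eq_mul]
      simp; ring
  have h2 : l ≤ Real.log (Real.log N) := by
    have hN' : (3 : ℝ) ≤ N := by exact_mod_cast hN
    exact Real.log_le_log (Real.log_pos (by norm_num)) (Real.log_le_log (by norm_num) hN')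
  have h3 := hC N hN
  refine (Nat.cast_le.mpr h1).trans ?_
  push_cast at h3 ⊢
  have h4 : (16 * C + 2 * M) * N ≤ (16 * C + 2 * M) / l * N * Real.log (Real.log N) := by
    calc (16 * C + 2 * M) * N = (16 * C + 2 * M) / l * N * l := by field_simp
      _ ≤ _ := mul_le_mul_of_nonneg_left h2 (by positivity)
  nlinarith

/-- **`S`-integral points on the twists.** -/
theorem exists_twist_points {A B : ℤ} (hΔ : 4 * A ^ 3 + 27 * B ^ 2 ≠ 0) {ε : ℝ} (hε : 0 < ε) :
    ∃ C : ℝ, 0 ≤ C ∧ ∀ (S : Finset ℕ), (∀ p ∈ S, p.Prime) → ∀ d : ℤ, d ≠ 0 →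
      (IntegralUniform.sPoints S (A * d ^ 2) (B * d ^ 3)).Finite ∧
      ((IntegralUniform.sPoints S (A * d ^ 2) (B * d ^ 3)).ncard : ℝ) ≤
        C * ((∏ p ∈ S, p : ℕ) : ℝ) ^ ε * |(d : ℝ)| ^ ε := by
  obtain ⟨M, hM⟩ := exists_rank_le_omega hΔ
  obtain ⟨c, hc⟩ : ∃ c : ℕ, c = 5 ^ 912 := ⟨_, rfl⟩
  obtain ⟨P, hP, hpow⟩ := exists_pow_card_le (c * 256) hε
  obtain ⟨Q, hQ, hpowS⟩ := exists_pow_card_le c hε
  obtain ⟨N, hN⟩ : ∃ N : ℕ, ∀ t, IntegralUniform.pointBound t = N * c ^ t := by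
    refine ⟨8 * (1110 * 5 ^ 931), fun t => ?_⟩
    unfold IntegralUniform.pointBound IntegralAverage.solBound
    rw [hc, ← pow_mul, show 19 * (2 * ((4 : ℕ).factorial * (t + 1)) + 1) = 931 + 912 * t by
      simp [Nat.factorial]; ring, pow_add]
    generalize (5 : ℕ) ^ 931 = u
    generalize (5 : ℕ) ^ (912 * t) = v
    ring
  have hc1 : 1 ≤ c := by rw [hc]; exact Nat.one_le_pow _ _ (by norm_num)
  clear hc
  set D := 4 * A ^ 3 + 27 * B ^ 2
  set w := D.natAbs.primeFactors.card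
  refine ⟨N * (c : ℝ) ^ (w + 2) * 2 ^ M * P * Q, by positivity, fun S hS d hd => ?_⟩
  obtain ⟨hfin, hle⟩ := IntegralUniform.sPoints_le_rank S (twist_disc_ne hΔ hd)
  refine ⟨hfin, ?_⟩
  rw [hN] at hle
  set ν := d.natAbs.primeFactors.card
  have hbad : (IntegralUniform.badPrimes S (A * d ^ 2) (B * d ^ 3)).card ≤
      S.card + (2 + (ν + w)) := by
    refine (card_union_le _ _).trans (Nat.add_le_add_left ?_ _)
    refine (card_le_card fun q hq => ?_).trans ((card_union_le ({2, 3} : Finset ℕ) _).trans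
      (Nat.add_le_add card_le_two (card_primes_twist A B d)))
    have hqp := Nat.prime_of_mem_primeFactors hq
    have hd' := Nat.dvd_of_mem_primeFactors hq
    rw [Int.natAbs_mul] at hd'
    rcases hqp.dvd_mul.mp hd' with hd' | hd'
    · refine mem_union_left _ ?_
      rcases hqp.dvd_mul.mp (show q ∣ 2 * 3 from hd') with h6 | h6
      · simp [(Nat.prime_dvd_prime_iff_eq hqp Nat.prime_two).mp h6]
      · simp [(Nat.prime_dvd_prime_iff_eq hqp Nat.prime_three).mp h6]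
    · exact mem_union_right _ (Nat.mem_primeFactors.mpr
        ⟨hqp, hd', Int.natAbs_ne_zero.mpr (twist_disc_ne hΔ hd)⟩)
  have hnat : (IntegralUniform.sPoints S (A * d ^ 2) (B * d ^ 3)).ncard ≤
      N * c ^ (w + 2) * 2 ^ M * ((c * 256) ^ ν) * c ^ S.card := by
    refine hle.trans ((Nat.mul_le_mul (Nat.mul_le_mul_left _ (Nat.pow_le_pow_right hc1 hbad))
      (Nat.pow_le_pow_right (by norm_num) (hM d hd))).trans_eq ?_)
    rw [pow_add, pow_add, pow_add, pow_add, pow_add, pow_mul, mul_pow]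
    norm_num
    ring
  have h1 : ((c : ℝ) * 256) ^ ν ≤ P * |(d : ℝ)| ^ ε := by
    have := hpow d.natAbs.primeFactors fun p hp => Nat.prime_of_mem_primeFactors hp
    push_cast at this
    refine this.trans (mul_le_mul_of_nonneg_left (Real.rpow_le_rpow ?_ ?_ hε.le) (by linarith))
    · exact Finset.prod_nonneg fun p _ => Nat.cast_nonneg p
    · rw [← Nat.cast_prod,
        show |(d : ℝ)| = ((d.natAbs : ℕ) : ℝ) by rw [Nat.cast_natAbs, Int.cast_abs]]
      exact Nat.cast_le.mpr (Nat.le_of_dvd (Int.natAbs_pos.mpr hd) (Nat.prod_primeFactors_dvd _))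
  have h2 := hpowS S hS
  calc ((IntegralUniform.sPoints S (A * d ^ 2) (B * d ^ 3)).ncard : ℝ)
      ≤ (N : ℝ) * (c : ℝ) ^ (w + 2) * 2 ^ M * ((c : ℝ) * 256) ^ ν * (c : ℝ) ^ S.card := by
        exact_mod_cast hnat
    _ ≤ (N : ℝ) * (c : ℝ) ^ (w + 2) * 2 ^ M * (P * |(d : ℝ)| ^ ε) *
          (Q * ((∏ p ∈ S, p : ℕ) : ℝ) ^ ε) := by gcongr
    _ = _ := by ring

/-- **Equations of given discriminant.** -/
theorem exists_models_of_discriminant {ε : ℝ} (hε : 0 < ε) : ∃ C : ℝ, 0 ≤ C ∧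
    ∀ D : ℤ, D ≠ 0 → ∀ T : Set (WeierstrassCurve ℤ), (∀ W ∈ T, W.Δ = D) →
      (∀ W ∈ T, ∀ W' ∈ T, (∃ v : VariableChange ℚ,
        v • IntegralUniform.ratModel W = IntegralUniform.ratModel W') → W = W') →
      T.Finite ∧ (T.ncard : ℝ) ≤ C * |(D : ℝ)| ^ (1 / 3 + ε) := by
  obtain ⟨C, hC, h⟩ := FA.ThreeTorsionBound.Summary.integral_points_third hε
  refine ⟨C * 1728 ^ (1 / 3 + ε), by positivity, fun D hD T hT hiso => ?_⟩
  obtain ⟨hfin, hle⟩ := h (-1728 * D) (mul_ne_zero (by norm_num) hD)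
  set g : WeierstrassCurve ℤ → ℤ × ℤ := fun W => (W.c₄, W.c₆)
  have hinj : Set.InjOn g T := by
    intro W hW W' hW' e
    simp only [g, Prod.mk.injEq] at e
    refine hiso W hW W' hW'
      ⟨(IntegralUniform.toShort W')⁻¹ * IntegralUniform.toShort W, ?_⟩
    rw [mul_smul, IntegralUniform.toShort_smul, e.1, e.2, ← IntegralUniform.toShort_smul,
      inv_smul_smul]
  have hmaps : Set.MapsTo g T {p : ℤ × ℤ | p.2 ^ 2 = p.1 ^ 3 + -1728 * D} := fun W hW => by
    show W.c₆ ^ 2 = W.c₄ ^ 3 + -1728 * D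
    rw [← hT W hW]
    linear_combination W.c_relation
  refine ⟨Set.Finite.of_injOn hmaps hinj hfin,
    (Nat.cast_le.mpr (Set.ncard_le_ncard_of_injOn g hmaps hinj hfin)).trans (hle.trans_eq ?_)⟩
  push_cast
  rw [abs_mul, abs_neg, Real.mul_rpow (by norm_num) (abs_nonneg _)]
  norm_num
  ring

end FA.TwistRankBound
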